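import Mathlib

/-!
# S14, Route II (analytic second inequality): the analytic core, definitions and interfaces

Goal of this directory: `ClassZetaDiffBounded` — the partial zeta functions of two ideal classes
of a number field differ by a bounded function on `(1, 2]`.  (No counting with error term, no
integrals: a Lipschitz partition of unity over the unit lattice replaces the fundamental cone, and
two lattice sums are compared term by term.)

As in `S14/Interface.lean`, the statements exchanged between the pieces are `Prop`s: the owner of
a piece proves `theorem xxx : Fermat.Agent.S14.Xxx`, a user takes `(h : Fermat.Agent.S14.Xxx)`.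

Pieces: (U1) `TentPartition`, (U2) `CutoffProps` + `CutoffUnitSum`, (U3) `ClassZetaLatticeSum`
[helper87]; (U4) pointwise estimate, (U5) sublattice comparison, (U6) assembly [helper56].
-/

set_option autoImplicit false

open NumberField NumberField.mixedEmbedding NumberField.Units
  NumberField.Units.dirichletUnitTheorem
open scoped nonZeroDivisors Classical

namespace Fermat.Agent.S14

/-- The partial zeta function of the ideal class `c` at the real number `s`. -/
noncomputable def classZeta (E : Type*) [Field E] [NumberField E] (c : ClassGroup (𝓞 E))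
    (s : ℝ) : ℝ :=
  ∑' I : {I : (Ideal (𝓞 E))⁰ // ClassGroup.mk0 I = c},
    ((Ideal.absNorm ((I : (Ideal (𝓞 E))⁰) : Ideal (𝓞 E)) : ℕ) : ℝ) ^ (-s)

/-- **Goal of the analytic core**: partial zeta functions of two classes differ by a bounded
function on `(1, 2]`. -/
def ClassZetaDiffBounded : Prop :=
  ∀ (E : Type) [Field E] [NumberField E] (c c' : ClassGroup (𝓞 E)),
    ∃ B : ℝ, ∀ s : ℝ, 1 < s → s ≤ 2 → |classZeta E c s - classZeta E c' s| ≤ B

/-- The tent function `t ↦ max 0 (1 - |t|)`; its integer translates sum to `1`. -/
noncomputable def tent (t : ℝ) : ℝ := max 0 (1 - |t|)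

/-- Product of tent functions of the coordinates. -/
noncomputable def tentProd {ι : Type*} [Fintype ι] (c : ι → ℝ) : ℝ := ∏ i, tent (c i)

/-- **(U1)** the integer translates of `tentProd` form a partition of unity. -/
def TentPartition : Prop :=
  ∀ (ι : Type) [Fintype ι] (c : ι → ℝ),
    HasSum (fun n : ι → ℤ => tentProd (fun i => c i + (n i : ℝ))) 1

/-- The cut-off function on the logarithmic space: the product of the tent functions of the
coordinates with respect to the basis of the unit lattice. -/
noncomputable def cutoff (E : Type*) [Field E] [NumberField E] (y : logSpace E) : ℝ :=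
  tentProd (fun i => ((basisUnitLattice E).ofZLatticeBasis ℝ _).repr y i)

/-- **(U2a)** elementary properties of the cut-off: values in `[0, 1]`, Lipschitz, bounded
support. -/
def CutoffProps : Prop :=
  ∀ (E : Type) [Field E] [NumberField E],
    (∀ y : logSpace E, 0 ≤ cutoff E y ∧ cutoff E y ≤ 1) ∧
    (∃ L : NNReal, LipschitzWith L (cutoff E)) ∧
    (∃ R0 : ℝ, ∀ y : logSpace E, R0 ≤ ‖y‖ → cutoff E y = 0)

/-- **(U2b)** the translates of the cut-off by the logarithms of ALL units sum to the number of
roots of unity. -/
def CutoffUnitSum : Prop :=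
  ∀ (E : Type) [Field E] [NumberField E] (y : logSpace E),
    HasSum (fun u : (𝓞 E)ˣ => cutoff E (logEmbedding E (Additive.ofMul u) + y))
      (torsionOrder E : ℝ)

/-- The term `F_s(x) = φ₀ (logMap x) * N(x) ^ (-s)` on the mixed space (`0` where the norm
vanishes), for a cut-off function `φ₀` on the logarithmic space. -/
noncomputable def czF (E : Type*) [Field E] [NumberField E] (φ₀ : logSpace E → ℝ) (s : ℝ)
    (x : mixedSpace E) : ℝ :=
  if mixedEmbedding.norm x = 0 then 0 else φ₀ (logMap x) * (mixedEmbedding.norm x) ^ (-s)

/-- **(U3)** the partial zeta function of the class `c` as a sum over the elements of an ideal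
`J` in the inverse class, weighted by the cut-off. -/
def ClassZetaLatticeSum : Prop :=
  ∀ (E : Type) [Field E] [NumberField E] (c : ClassGroup (𝓞 E)) (J : (Ideal (𝓞 E))⁰),
    ClassGroup.mk0 J = c⁻¹ → ∀ s : ℝ, 1 < s →
      Summable (fun γ : (J : Ideal (𝓞 E)) =>
        czF E (cutoff E) s (mixedEmbedding E (((γ : 𝓞 E)) : E))) ∧
      classZeta E c s = ((Ideal.absNorm (J : Ideal (𝓞 E)) : ℕ) : ℝ) ^ s / (torsionOrder E : ℝ) *
        ∑' γ : (J : Ideal (𝓞 E)), czF E (cutoff E) s (mixedEmbedding E (((γ : 𝓞 E)) : E))

end Fermat.Agent.S14
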