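import Fermat.Agent.S14.ClassZeta.Cutoff
import Fermat.Agent.Lib.FrobDensity.EulerZeta

/-!
# (U3) The partial zeta function of an ideal class as a weighted lattice sum

For an integral ideal `J` in the class `c⁻¹`, the ideals `I` of the class `c` correspond to the
principal ideals `I * J = (γ)`, `γ ∈ J`, `γ ≠ 0`, and `γ` is determined up to a unit.  Since the
translates of the cut-off by the logarithms of all units sum to the number `w` of roots of unity,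
`∑_{γ ∈ J} cutoff (logMap γ) * |N γ| ^ (-s) = w * (N J) ^ (-s) * ∑_{I ∈ c} (N I) ^ (-s)`.
-/

set_option autoImplicit false

open NumberField NumberField.mixedEmbedding NumberField.Units
  NumberField.Units.dirichletUnitTheorem
open scoped nonZeroDivisors Classical

namespace Fermat.Agent.S14

variable {E : Type*} [Field E] [NumberField E]

section Generators

variable (c : ClassGroup (𝓞 E)) (J : (Ideal (𝓞 E))⁰) (hJ : ClassGroup.mk0 J = c⁻¹)

include hJ in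
lemma isPrincipal_mul_of_class (I : {I : (Ideal (𝓞 E))⁰ // ClassGroup.mk0 I = c}) :
    (((I : (Ideal (𝓞 E))⁰) : Ideal (𝓞 E)) * (J : Ideal (𝓞 E))).IsPrincipal := by
  have h : ClassGroup.mk0 (I.1 * J) = 1 := by rw [map_mul, I.2, hJ, mul_inv_cancel]
  have h2 := (ClassGroup.mk0_eq_one_iff
    (I := ((I.1 * J : (Ideal (𝓞 E))⁰) : Ideal (𝓞 E))) (SetLike.coe_mem _)).mp h
  simpa using h2

/-- A generator of the principal ideal `I * J`. -/
noncomputable def czGen (I : {I : (Ideal (𝓞 E))⁰ // ClassGroup.mk0 I = c}) : 𝓞 E :=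
  haveI := isPrincipal_mul_of_class c J hJ I
  Submodule.IsPrincipal.generator
    (((I : (Ideal (𝓞 E))⁰) : Ideal (𝓞 E)) * (J : Ideal (𝓞 E)))

lemma span_czGen (I : {I : (Ideal (𝓞 E))⁰ // ClassGroup.mk0 I = c}) :
    Ideal.span {czGen c J hJ I} = ((I : (Ideal (𝓞 E))⁰) : Ideal (𝓞 E)) * (J : Ideal (𝓞 E)) := by
  have := isPrincipal_mul_of_class c J hJ I
  exact Ideal.span_singleton_generator _

lemma czGen_mem (I : {I : (Ideal (𝓞 E))⁰ // ClassGroup.mk0 I = c}) :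
    czGen c J hJ I ∈ (J : Ideal (𝓞 E)) := by
  have h : czGen c J hJ I ∈ Ideal.span {czGen c J hJ I} := Ideal.mem_span_singleton_self _
  rw [span_czGen] at h
  exact Ideal.mul_le_right h

lemma czGen_ne_zero (I : {I : (Ideal (𝓞 E))⁰ // ClassGroup.mk0 I = c}) :
    czGen c J hJ I ≠ 0 := by
  intro h0
  have h := span_czGen c J hJ I
  rw [h0, Ideal.span_singleton_eq_bot.mpr rfl] at h
  have h1 : ((I : (Ideal (𝓞 E))⁰) : Ideal (𝓞 E)) ≠ 0 := nonZeroDivisors.coe_ne_zero _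
  have h2 : (J : Ideal (𝓞 E)) ≠ 0 := nonZeroDivisors.coe_ne_zero _
  exact mul_ne_zero h1 h2 h.symm

lemma absNorm_span_czGen (I : {I : (Ideal (𝓞 E))⁰ // ClassGroup.mk0 I = c}) :
    Ideal.absNorm (Ideal.span {czGen c J hJ I}) =
      Ideal.absNorm ((I : (Ideal (𝓞 E))⁰) : Ideal (𝓞 E)) * Ideal.absNorm (J : Ideal (𝓞 E)) := by
  rw [span_czGen, map_mul]

/-- The map `(I, u) ↦ u * g_I` from (ideals of the class `c`) × units to the ideal `J`. -/
noncomputable def czMap (p : {I : (Ideal (𝓞 E))⁰ // ClassGroup.mk0 I = c} × (𝓞 E)ˣ) :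
    (J : Ideal (𝓞 E)) :=
  ⟨(p.2 : 𝓞 E) * czGen c J hJ p.1, Ideal.mul_mem_left _ _ (czGen_mem c J hJ p.1)⟩

lemma czMap_coe (p : {I : (Ideal (𝓞 E))⁰ // ClassGroup.mk0 I = c} × (𝓞 E)ˣ) :
    ((czMap c J hJ p : (J : Ideal (𝓞 E))) : 𝓞 E) = (p.2 : 𝓞 E) * czGen c J hJ p.1 := rfl

lemma czMap_injective : Function.Injective (czMap c J hJ) := by
  rintro ⟨I, u⟩ ⟨I', u'⟩ h
  have h1 : (u : 𝓞 E) * czGen c J hJ I = (u' : 𝓞 E) * czGen c J hJ I' := by
    have := congrArg (fun γ : (J : Ideal (𝓞 E)) => (γ : 𝓞 E)) h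
    simpa [czMap_coe] using this
  have hspan : Ideal.span {czGen c J hJ I} = Ideal.span {czGen c J hJ I'} := by
    rw [Ideal.span_singleton_eq_span_singleton]
    refine ⟨u'⁻¹ * u, ?_⟩
    have : czGen c J hJ I' = (↑(u'⁻¹) : 𝓞 E) * ((u : 𝓞 E) * czGen c J hJ I) := by
      rw [h1, ← mul_assoc, ← Units.val_mul, inv_mul_cancel, Units.val_one, one_mul]
    rw [this, Units.val_mul]; ring
  rw [span_czGen, span_czGen] at hspan
  have hJ0 : (J : Ideal (𝓞 E)) ≠ 0 := nonZeroDivisors.coe_ne_zero _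
  have hI : ((I : (Ideal (𝓞 E))⁰) : Ideal (𝓞 E)) = ((I' : (Ideal (𝓞 E))⁰) : Ideal (𝓞 E)) :=
    mul_right_cancel₀ hJ0 hspan
  have hI' : I = I' := Subtype.ext (Subtype.ext hI)
  subst hI'
  have hu : (u : 𝓞 E) = (u' : 𝓞 E) := mul_right_cancel₀ (czGen_ne_zero c J hJ I) h1
  rw [Units.ext hu]

lemma mem_range_czMap (γ : (J : Ideal (𝓞 E))) (hγ : (γ : 𝓞 E) ≠ 0) :
    γ ∈ Set.range (czMap c J hJ) := by
  have hle : Ideal.span {(γ : 𝓞 E)} ≤ (J : Ideal (𝓞 E)) :=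
    (Ideal.span_singleton_le_iff_mem _).mpr γ.2
  obtain ⟨I₀, hI₀⟩ := Ideal.dvd_iff_le.mpr hle
  have hspan0 : Ideal.span {(γ : 𝓞 E)} ≠ 0 := by
    rw [Ne, Ideal.zero_eq_bot, Ideal.span_singleton_eq_bot]; exact hγ
  have hI₀0 : I₀ ≠ 0 := by
    rintro rfl
    rw [mul_zero] at hI₀
    exact hspan0 hI₀
  have hI₀mem : I₀ ∈ (Ideal (𝓞 E))⁰ := mem_nonZeroDivisors_iff_ne_zero.mpr hI₀0
  have hspanmem : Ideal.span {(γ : 𝓞 E)} ∈ (Ideal (𝓞 E))⁰ :=
    mem_nonZeroDivisors_iff_ne_zero.mpr hspan0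
  have h1 : ClassGroup.mk0 ⟨Ideal.span {(γ : 𝓞 E)}, hspanmem⟩ = 1 :=
    (ClassGroup.mk0_eq_one_iff hspanmem).mpr ⟨⟨_, rfl⟩⟩
  have h2 : (⟨Ideal.span {(γ : 𝓞 E)}, hspanmem⟩ : (Ideal (𝓞 E))⁰) = J * ⟨I₀, hI₀mem⟩ :=
    Subtype.ext hI₀
  have hcls : ClassGroup.mk0 (⟨I₀, hI₀mem⟩ : (Ideal (𝓞 E))⁰) = c := by
    rw [h2, map_mul, hJ] at h1
    exact (inv_mul_eq_one.mp h1).symm
  let I : {I : (Ideal (𝓞 E))⁰ // ClassGroup.mk0 I = c} := ⟨⟨I₀, hI₀mem⟩, hcls⟩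
  have hgen : Ideal.span {czGen c J hJ I} = Ideal.span {(γ : 𝓞 E)} := by
    rw [span_czGen, hI₀, mul_comm]
  obtain ⟨u, hu⟩ := Ideal.span_singleton_eq_span_singleton.mp hgen
  refine ⟨(I, u), Subtype.ext ?_⟩
  rw [czMap_coe, mul_comm]
  exact hu

end Generators

section Norm

lemma mixedEmbedding_norm_coe (g : 𝓞 E) :
    mixedEmbedding.norm (mixedEmbedding E (g : E)) =
      ((Ideal.absNorm (Ideal.span {g}) : ℕ) : ℝ) := by
  rw [Ideal.absNorm_span_singleton, Nat.cast_natAbs, ← Rat.cast_intCast, Int.cast_abs,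
    Algebra.coe_norm_int, ← mixedEmbedding.norm_eq_norm]

omit [NumberField E] in
lemma mixedEmbedding_unit_mul (u : (𝓞 E)ˣ) (g : 𝓞 E) :
    mixedEmbedding E ((((u : 𝓞 E) * g : 𝓞 E)) : E) = u • mixedEmbedding E (g : E) := by
  rw [unitSMul_smul, ← map_mul]
  rfl

lemma czF_unit_mul (φ₀ : logSpace E → ℝ) (s : ℝ) (u : (𝓞 E)ˣ) (g : 𝓞 E) (hg : g ≠ 0) :
    czF E φ₀ s (mixedEmbedding E ((((u : 𝓞 E) * g : 𝓞 E)) : E)) =
      φ₀ (logEmbedding E (Additive.ofMul u) + logMap (mixedEmbedding E (g : E))) *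
        (((Ideal.absNorm (Ideal.span {g}) : ℕ) : ℝ)) ^ (-s) := by
  have hn : mixedEmbedding.norm (mixedEmbedding E (g : E)) ≠ 0 := by
    rw [mixedEmbedding_norm_coe]
    have : Ideal.absNorm (Ideal.span {g}) ≠ 0 := by
      rw [Ne, Ideal.absNorm_eq_zero_iff, Ideal.span_singleton_eq_bot]; exact hg
    exact_mod_cast this
  rw [mixedEmbedding_unit_mul, czF, norm_unit_smul, if_neg hn, logMap_unit_smul u hn,
    mixedEmbedding_norm_coe]

lemma czF_zero (φ₀ : logSpace E → ℝ) (s : ℝ) :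
    czF E φ₀ s (mixedEmbedding E (((0 : 𝓞 E)) : E)) = 0 := by
  simp [czF]

end Norm

section Main

variable (c : ClassGroup (𝓞 E)) (J : (Ideal (𝓞 E))⁰) (hJ : ClassGroup.mk0 J = c⁻¹)

/-- The weight of an ideal of the class `c`. -/
lemma summable_classIdeals {s : ℝ} (hs : 1 < s) :
    Summable (fun I : {I : (Ideal (𝓞 E))⁰ // ClassGroup.mk0 I = c} =>
      ((Ideal.absNorm ((I : (Ideal (𝓞 E))⁰) : Ideal (𝓞 E)) : ℕ) : ℝ) ^ (-s)) := by
  have h := Fermat.Agent.FrobDensity.summable_normWeight E hs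
  have hinj : Function.Injective
      (fun I : {I : (Ideal (𝓞 E))⁰ // ClassGroup.mk0 I = c} =>
        ((I : (Ideal (𝓞 E))⁰) : Ideal (𝓞 E))) :=
    fun a b hab => Subtype.ext (Subtype.ext hab)
  exact h.comp_injective hinj

lemma czF_czMap (s : ℝ) (p : {I : (Ideal (𝓞 E))⁰ // ClassGroup.mk0 I = c} × (𝓞 E)ˣ) :
    czF E (cutoff E) s (mixedEmbedding E ((((czMap c J hJ p : (J : Ideal (𝓞 E))) : 𝓞 E)) : E)) =
      cutoff E (logEmbedding E (Additive.ofMul p.2) +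
          logMap (mixedEmbedding E ((czGen c J hJ p.1 : 𝓞 E) : E))) *
        ((((Ideal.absNorm ((p.1 : (Ideal (𝓞 E))⁰) : Ideal (𝓞 E)) : ℕ) : ℝ)) ^ (-s) *
          (((Ideal.absNorm (J : Ideal (𝓞 E)) : ℕ) : ℝ)) ^ (-s)) := by
  rw [czMap_coe, czF_unit_mul _ _ _ _ (czGen_ne_zero c J hJ p.1), absNorm_span_czGen,
    Nat.cast_mul, Real.mul_rpow (Nat.cast_nonneg _) (Nat.cast_nonneg _)]

lemma hasSum_czF_units (s : ℝ) (I : {I : (Ideal (𝓞 E))⁰ // ClassGroup.mk0 I = c}) :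
    HasSum (fun u : (𝓞 E)ˣ =>
      czF E (cutoff E) s
        (mixedEmbedding E ((((czMap c J hJ (I, u) : (J : Ideal (𝓞 E))) : 𝓞 E)) : E)))
      ((torsionOrder E : ℝ) *
        ((((Ideal.absNorm ((I : (Ideal (𝓞 E))⁰) : Ideal (𝓞 E)) : ℕ) : ℝ)) ^ (-s) *
          (((Ideal.absNorm (J : Ideal (𝓞 E)) : ℕ) : ℝ)) ^ (-s))) := by
  have h := (hasSum_cutoff_units E
    (logMap (mixedEmbedding E ((czGen c J hJ I : 𝓞 E) : E)))).mul_right
    ((((Ideal.absNorm ((I : (Ideal (𝓞 E))⁰) : Ideal (𝓞 E)) : ℕ) : ℝ)) ^ (-s) *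
          (((Ideal.absNorm (J : Ideal (𝓞 E)) : ℕ) : ℝ)) ^ (-s))
  refine h.congr_fun ?_
  intro u
  exact czF_czMap c J hJ s (I, u)

lemma czF_nonneg (s : ℝ) (x : mixedSpace E) : 0 ≤ czF E (cutoff E) s x := by
  unfold czF
  split_ifs
  · exact le_rfl
  · exact mul_nonneg (cutoff_nonneg E _) (Real.rpow_nonneg (mixedEmbedding.norm_nonneg _) _)

lemma summable_czF_comp_czMap {s : ℝ} (hs : 1 < s) :
    Summable (fun p : {I : (Ideal (𝓞 E))⁰ // ClassGroup.mk0 I = c} × (𝓞 E)ˣ =>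
      czF E (cutoff E) s
        (mixedEmbedding E ((((czMap c J hJ p : (J : Ideal (𝓞 E))) : 𝓞 E)) : E))) := by
  rw [summable_prod_of_nonneg (fun p => czF_nonneg s _)]
  refine ⟨fun I => (hasSum_czF_units c J hJ s I).summable, ?_⟩
  have h : (fun I : {I : (Ideal (𝓞 E))⁰ // ClassGroup.mk0 I = c} =>
      ∑' u : (𝓞 E)ˣ, czF E (cutoff E) s
        (mixedEmbedding E ((((czMap c J hJ (I, u) : (J : Ideal (𝓞 E))) : 𝓞 E)) : E))) =
      fun I : {I : (Ideal (𝓞 E))⁰ // ClassGroup.mk0 I = c} =>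
        ((torsionOrder E : ℝ) * (((Ideal.absNorm (J : Ideal (𝓞 E)) : ℕ) : ℝ)) ^ (-s)) *
        (((Ideal.absNorm ((I : (Ideal (𝓞 E))⁰) : Ideal (𝓞 E)) : ℕ) : ℝ)) ^ (-s) := by
    funext I
    rw [(hasSum_czF_units c J hJ s I).tsum_eq]
    ring
  rw [h]
  exact (summable_classIdeals c hs).mul_left _

lemma tsum_czF_comp_czMap {s : ℝ} (hs : 1 < s) :
    ∑' p : {I : (Ideal (𝓞 E))⁰ // ClassGroup.mk0 I = c} × (𝓞 E)ˣ,
      czF E (cutoff E) s
        (mixedEmbedding E ((((czMap c J hJ p : (J : Ideal (𝓞 E))) : 𝓞 E)) : E)) =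
      ((torsionOrder E : ℝ) * (((Ideal.absNorm (J : Ideal (𝓞 E)) : ℕ) : ℝ)) ^ (-s)) *
        classZeta E c s := by
  rw [(summable_czF_comp_czMap c J hJ hs).tsum_prod'
    (fun I => (hasSum_czF_units c J hJ s I).summable)]
  unfold classZeta
  rw [← tsum_mul_left]
  refine tsum_congr fun I => ?_
  rw [(hasSum_czF_units c J hJ s I).tsum_eq]
  ring

lemma czF_eq_zero_of_not_mem_range (s : ℝ) (γ : (J : Ideal (𝓞 E)))
    (hγ : γ ∉ Set.range (czMap c J hJ)) :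
    czF E (cutoff E) s (mixedEmbedding E (((γ : 𝓞 E)) : E)) = 0 := by
  have h0 : (γ : 𝓞 E) = 0 := by
    by_contra hne
    exact hγ (mem_range_czMap c J hJ γ hne)
  rw [h0]
  exact czF_zero _ _

include hJ in
theorem classZeta_eq_lattice_sum {s : ℝ} (hs : 1 < s) :
    Summable (fun γ : (J : Ideal (𝓞 E)) =>
        czF E (cutoff E) s (mixedEmbedding E (((γ : 𝓞 E)) : E))) ∧
      classZeta E c s =
        ((Ideal.absNorm (J : Ideal (𝓞 E)) : ℕ) : ℝ) ^ s / (torsionOrder E : ℝ) *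
          ∑' γ : (J : Ideal (𝓞 E)), czF E (cutoff E) s (mixedEmbedding E (((γ : 𝓞 E)) : E)) := by
  have hsum : Summable (fun γ : (J : Ideal (𝓞 E)) =>
      czF E (cutoff E) s (mixedEmbedding E (((γ : 𝓞 E)) : E))) :=
    ((czMap_injective c J hJ).summable_iff
      (fun γ hγ => czF_eq_zero_of_not_mem_range c J hJ s γ hγ)).mp
      (summable_czF_comp_czMap c J hJ hs)
  refine ⟨hsum, ?_⟩
  have hsupp : Function.support (fun γ : (J : Ideal (𝓞 E)) =>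
      czF E (cutoff E) s (mixedEmbedding E (((γ : 𝓞 E)) : E))) ⊆
      Set.range (czMap c J hJ) := by
    intro γ hγ
    by_contra hcon
    exact hγ (czF_eq_zero_of_not_mem_range c J hJ s γ hcon)
  rw [← (czMap_injective c J hJ).tsum_eq hsupp, tsum_czF_comp_czMap c J hJ hs]
  have hw : (torsionOrder E : ℝ) ≠ 0 := by
    have : torsionOrder E ≠ 0 := torsionOrder_ne_zero E
    exact_mod_cast this
  have hN : (0 : ℝ) < ((Ideal.absNorm (J : Ideal (𝓞 E)) : ℕ) : ℝ) := by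
    have : Ideal.absNorm (J : Ideal (𝓞 E)) ≠ 0 := Ideal.absNorm_ne_zero_of_nonZeroDivisors J
    exact_mod_cast Nat.pos_of_ne_zero this
  have hpow : ((Ideal.absNorm (J : Ideal (𝓞 E)) : ℕ) : ℝ) ^ s *
      ((Ideal.absNorm (J : Ideal (𝓞 E)) : ℕ) : ℝ) ^ (-s) = 1 := by
    rw [← Real.rpow_add hN, add_neg_cancel, Real.rpow_zero]
  field_simp
  linear_combination (-(classZeta E c s)) * hpow

end Main

/-- **(U3)** -/
theorem classZetaLatticeSum : ClassZetaLatticeSum := fun _ _ _ c J hJ _ hs =>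
  classZeta_eq_lattice_sum c J hJ hs

end Fermat.Agent.S14
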