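import Fermat.Agent.S14.ClassZeta.Tent

/-!
# (U2) The cut-off function on the logarithmic space
-/

set_option autoImplicit false

open NumberField NumberField.mixedEmbedding NumberField.Units
  NumberField.Units.dirichletUnitTheorem
open scoped nonZeroDivisors Classical

namespace Fermat.Agent.S14

variable (E : Type*) [Field E] [NumberField E]

/-- The real basis of the logarithmic space given by the basis of the unit lattice. -/
noncomputable def logBasis : Module.Basis (Fin (rank E)) ℝ (logSpace E) :=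
  (basisUnitLattice E).ofZLatticeBasis ℝ _

lemma cutoff_eq (y : logSpace E) :
    cutoff E y = tentProd (fun i => (logBasis E).repr y i) := rfl

lemma logBasis_apply (i : Fin (rank E)) :
    logBasis E i = (basisUnitLattice E i : logSpace E) := by
  unfold logBasis
  exact Module.Basis.ofZLatticeBasis_apply ℝ _ _ i

lemma cutoff_nonneg (y : logSpace E) : 0 ≤ cutoff E y := tentProd_nonneg _

lemma cutoff_le_one (y : logSpace E) : cutoff E y ≤ 1 := tentProd_le_one _

/-- The `i`-th coordinate as a continuous linear functional. -/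
noncomputable def logCoord (i : Fin (rank E)) : logSpace E →L[ℝ] ℝ :=
  LinearMap.toContinuousLinearMap ((logBasis E).coord i)

lemma logCoord_apply (i : Fin (rank E)) (y : logSpace E) :
    logCoord E i y = (logBasis E).repr y i := rfl

lemma abs_cutoff_sub_le (y y' : logSpace E) :
    |cutoff E y - cutoff E y'| ≤ (∑ i, ‖logCoord E i‖) * ‖y - y'‖ := by
  rw [cutoff_eq, cutoff_eq]
  refine (abs_tentProd_sub_le _ _).trans ?_
  rw [Finset.sum_mul]
  refine Finset.sum_le_sum fun i _ => ?_
  have := (logCoord E i).le_opNorm (y - y')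
  rw [map_sub, logCoord_apply, logCoord_apply, Real.norm_eq_abs] at this
  exact this

lemma cutoff_lipschitz : ∃ L : NNReal, LipschitzWith L (cutoff E) := by
  refine ⟨⟨∑ i, ‖logCoord E i‖, Finset.sum_nonneg fun i _ => norm_nonneg _⟩, ?_⟩
  refine LipschitzWith.of_dist_le_mul fun y y' => ?_
  rw [Real.dist_eq, dist_eq_norm]
  exact abs_cutoff_sub_le E y y'

lemma cutoff_eq_zero_of_le (y : logSpace E) (h : (∑ i, ‖logBasis E i‖) + 1 ≤ ‖y‖) :
    cutoff E y = 0 := by
  by_contra hne
  have hlt : ∀ i, |(logBasis E).repr y i| < 1 := by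
    intro i
    by_contra hcon
    exact hne (tentProd_eq_zero_of_one_le_abs _ i (not_lt.mp hcon))
  have hy : y = ∑ i, (logBasis E).repr y i • logBasis E i := ((logBasis E).sum_repr y).symm
  have : ‖y‖ ≤ ∑ i, ‖logBasis E i‖ := by
    conv_lhs => rw [hy]
    refine (norm_sum_le _ _).trans (Finset.sum_le_sum fun i _ => ?_)
    rw [_root_.norm_smul, Real.norm_eq_abs]
    calc |(logBasis E).repr y i| * ‖logBasis E i‖ ≤ 1 * ‖logBasis E i‖ :=
          mul_le_mul_of_nonneg_right (hlt i).le (norm_nonneg _)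
      _ = ‖logBasis E i‖ := one_mul _
  linarith

/-- **(U2a)** -/
theorem cutoffProps : CutoffProps := fun E _ _ =>
  ⟨fun y => ⟨cutoff_nonneg E y, cutoff_le_one E y⟩, cutoff_lipschitz E,
    ⟨_, fun y hy => cutoff_eq_zero_of_le E y hy⟩⟩

/-- The logarithmic embedding of a unit written in terms of the fundamental system. -/
lemma logEmbedding_mul_prod (ζ : torsion E) (n : Fin (rank E) → ℤ) :
    logEmbedding E (Additive.ofMul ((ζ : (𝓞 E)ˣ) * ∏ i, (fundSystem E i) ^ (n i))) =
      ∑ i, (n i : ℝ) • logBasis E i := by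
  rw [ofMul_mul, map_add, logEmbedding_eq_zero_iff.mpr ζ.2, zero_add, ofMul_prod, map_sum]
  refine Finset.sum_congr rfl fun i _ => ?_
  rw [ofMul_zpow, map_zsmul, logEmbedding_fundSystem, logBasis_apply]
  exact (Int.cast_smul_eq_zsmul ℝ (n i) _).symm

lemma logBasis_repr_logEmbedding_add (ζ : torsion E) (n : Fin (rank E) → ℤ) (y : logSpace E)
    (i : Fin (rank E)) :
    (logBasis E).repr
      (logEmbedding E (Additive.ofMul ((ζ : (𝓞 E)ˣ) * ∏ i, (fundSystem E i) ^ (n i))) + y) i =
      (logBasis E).repr y i + (n i : ℝ) := by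
  rw [logEmbedding_mul_prod, map_add, Finsupp.add_apply, (logBasis E).repr_sum_self]
  ring

/-- The Dirichlet decomposition of the units as a bijection. -/
noncomputable def unitsEquivProd : torsion E × (Fin (rank E) → ℤ) ≃ (𝓞 E)ˣ :=
  Equiv.ofBijective (fun ζe => (ζe.1 : (𝓞 E)ˣ) * ∏ i, (fundSystem E i) ^ (ζe.2 i)) <| by
    constructor
    · intro a b hab
      obtain ⟨c, -, hc⟩ := exist_unique_eq_mul_prod E
        ((a.1 : (𝓞 E)ˣ) * ∏ i, (fundSystem E i) ^ (a.2 i))
      rw [hc a rfl, hc b hab]
    · intro u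
      obtain ⟨c, hc, -⟩ := exist_unique_eq_mul_prod E u
      exact ⟨c, hc.symm⟩

lemma unitsEquivProd_apply (ζe : torsion E × (Fin (rank E) → ℤ)) :
    unitsEquivProd E ζe = (ζe.1 : (𝓞 E)ˣ) * ∏ i, (fundSystem E i) ^ (ζe.2 i) := rfl

/-- **(U2b)** the translates of the cut-off by the logarithms of all units sum to the number
of roots of unity. -/
lemma hasSum_const_mul_prod {α β : Type*} [Fintype α] (g : β → ℝ) (hg0 : ∀ b, 0 ≤ g b)
    {t : ℝ} (hg : HasSum g t) :
    HasSum (fun x : α × β => (1 : ℝ) * g x.2) ((Fintype.card α : ℝ) * t) := by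
  have h1 : HasSum (fun _ : α => (1 : ℝ)) (Fintype.card α : ℝ) := by
    have := hasSum_fintype (fun _ : α => (1 : ℝ))
    simpa using this
  exact HasSum.mul (f := fun _ : α => (1 : ℝ)) (g := g) h1 hg
    (Summable.mul_of_nonneg h1.summable hg.summable (fun _ => zero_le_one) hg0)

lemma hasSum_prod_tentProd (c : Fin (rank E) → ℝ) :
    HasSum (fun x : torsion E × (Fin (rank E) → ℤ) =>
        (1 : ℝ) * tentProd (fun i => c i + ((x.2 i : ℤ) : ℝ))) (torsionOrder E : ℝ) := by
  have : Fintype (torsion E) := Fintype.ofFinite _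
  have h := hasSum_const_mul_prod (α := torsion E) (fun n : Fin (rank E) → ℤ =>
    tentProd (fun i => c i + ((n i : ℤ) : ℝ))) (fun _ => tentProd_nonneg _) (hasSum_tentProd c)
  rw [mul_one] at h
  have e : (Fintype.card (torsion E) : ℝ) = (torsionOrder E : ℝ) := by
    rw [torsionOrder, Nat.card_eq_fintype_card]
  rw [e] at h
  exact h

lemma cutoff_comp_unitsEquivProd (y : logSpace E) :
    ((fun u : (𝓞 E)ˣ => cutoff E (logEmbedding E (Additive.ofMul u) + y)) ∘
      (unitsEquivProd E)) =
      fun x : torsion E × (Fin (rank E) → ℤ) =>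
        (1 : ℝ) * tentProd (fun i => (logBasis E).repr y i + ((x.2 i : ℤ) : ℝ)) := by
  funext ζe
  rw [one_mul, Function.comp_apply, unitsEquivProd_apply, cutoff_eq]
  congr 1
  funext i
  exact logBasis_repr_logEmbedding_add E ζe.1 ζe.2 y i

theorem hasSum_cutoff_units (y : logSpace E) :
    HasSum (fun u : (𝓞 E)ˣ => cutoff E (logEmbedding E (Additive.ofMul u) + y))
      (torsionOrder E : ℝ) := by
  refine ((unitsEquivProd E).hasSum_iff).mp ?_
  rw [cutoff_comp_unitsEquivProd]
  exact hasSum_prod_tentProd E _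

theorem cutoffUnitSum : CutoffUnitSum := fun E _ _ y => hasSum_cutoff_units E y

end Fermat.Agent.S14
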