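import Fermat.Agent.S14.ClassZeta.Defs

/-!
# (U1) The tent partition of unity
-/

set_option autoImplicit false

namespace Fermat.Agent.S14

lemma tent_nonneg (t : ℝ) : 0 ≤ tent t := le_max_left _ _

lemma tent_le_one (t : ℝ) : tent t ≤ 1 :=
  max_le zero_le_one (by linarith [abs_nonneg t])

lemma tent_eq_zero_of_one_le_abs {t : ℝ} (h : 1 ≤ |t|) : tent t = 0 :=
  max_eq_left (by linarith)

lemma tent_of_abs_le_one {t : ℝ} (h : |t| ≤ 1) : tent t = 1 - |t| :=
  max_eq_right (by linarith)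

lemma tent_ne_zero_imp {t : ℝ} (h : tent t ≠ 0) : |t| < 1 := by
  by_contra hcon
  exact h (tent_eq_zero_of_one_le_abs (not_lt.mp hcon))

lemma tent_lipschitz : LipschitzWith 1 tent := by
  have h1 : LipschitzWith 1 (fun t : ℝ => 1 - |t|) := by
    refine LipschitzWith.of_dist_le_mul fun x y => ?_
    simp only [NNReal.coe_one, one_mul, Real.dist_eq]
    have := abs_abs_sub_abs_le_abs_sub x y
    calc |1 - |x| - (1 - |y|)| = |(|x| - |y|)| := by
          rw [show 1 - |x| - (1 - |y|) = -(|x| - |y|) by ring, abs_neg]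
      _ ≤ |x - y| := abs_abs_sub_abs_le_abs_sub x y
  exact (LipschitzWith.const_max h1 0)

lemma abs_tent_sub_le (t t' : ℝ) : |tent t - tent t'| ≤ |t - t'| := by
  have := tent_lipschitz.dist_le_mul t t'
  simpa [Real.dist_eq] using this

lemma tent_add_floor_pair (c : ℝ) :
    tent (c + ((-⌊c⌋ : ℤ) : ℝ)) + tent (c + ((-⌊c⌋ - 1 : ℤ) : ℝ)) = 1 := by
  have h0 := Int.fract_nonneg c
  have h1 := Int.fract_lt_one c
  have e1 : c + ((-⌊c⌋ : ℤ) : ℝ) = Int.fract c := by
    rw [Int.fract]; push_cast; ring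
  have e2 : c + ((-⌊c⌋ - 1 : ℤ) : ℝ) = Int.fract c - 1 := by
    rw [Int.fract]; push_cast; ring
  rw [e1, e2, tent_of_abs_le_one, tent_of_abs_le_one]
  · rw [abs_of_nonneg h0, abs_of_nonpos (by linarith)]; ring
  · rw [abs_of_nonpos (by linarith)]; linarith
  · rw [abs_of_nonneg h0]; linarith

lemma tent_add_int_eq_zero {c : ℝ} {n : ℤ} (h1 : n ≠ -⌊c⌋) (h2 : n ≠ -⌊c⌋ - 1) :
    tent (c + (n : ℝ)) = 0 := by
  apply tent_eq_zero_of_one_le_abs
  have h0 := Int.fract_nonneg c
  have h1' := Int.fract_lt_one c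
  have e : c + (n : ℝ) = Int.fract c + ((⌊c⌋ + n : ℤ) : ℝ) := by
    rw [Int.fract]; push_cast; ring
  rw [e]
  rcases lt_or_gt_of_ne (show ⌊c⌋ + n ≠ 0 by omega) with h | h
  · have h3 : ⌊c⌋ + n ≤ -2 := by omega
    have : ((⌊c⌋ + n : ℤ) : ℝ) ≤ -2 := by exact_mod_cast h3
    rw [abs_of_nonpos (by linarith)]; linarith
  · have h3 : 1 ≤ ⌊c⌋ + n := by omega
    have : (1 : ℝ) ≤ ((⌊c⌋ + n : ℤ) : ℝ) := by exact_mod_cast h3
    rw [abs_of_nonneg (by linarith)]; linarith

lemma tentProd_nonneg {ι : Type*} [Fintype ι] (c : ι → ℝ) : 0 ≤ tentProd c :=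
  Finset.prod_nonneg fun i _ => tent_nonneg (c i)

lemma tentProd_le_one {ι : Type*} [Fintype ι] (c : ι → ℝ) : tentProd c ≤ 1 :=
  Finset.prod_le_one (fun i _ => tent_nonneg (c i)) fun i _ => tent_le_one (c i)

lemma tentProd_eq_zero_of_one_le_abs {ι : Type*} [Fintype ι] (c : ι → ℝ) (i : ι)
    (h : 1 ≤ |c i|) : tentProd c = 0 :=
  Finset.prod_eq_zero (Finset.mem_univ i) (tent_eq_zero_of_one_le_abs h)

/-- **(U1)** the integer translates of `tentProd` form a partition of unity. -/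
theorem hasSum_tentProd {ι : Type*} [Fintype ι] (c : ι → ℝ) :
    HasSum (fun n : ι → ℤ => tentProd (fun i => c i + (n i : ℝ))) 1 := by
  classical
  let S : ι → Finset ℤ := fun i => {-⌊c i⌋, -⌊c i⌋ - 1}
  have hsum : ∑ n ∈ Fintype.piFinset S, tentProd (fun i => c i + (n i : ℝ)) = 1 := by
    unfold tentProd
    rw [← Finset.prod_univ_sum S (fun i j => tent (c i + (j : ℝ)))]
    refine Finset.prod_eq_one fun i _ => ?_
    have hne : (-⌊c i⌋ : ℤ) ≠ -⌊c i⌋ - 1 := by omega
    simp only [S]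
    rw [Finset.sum_pair hne]
    exact tent_add_floor_pair (c i)
  rw [← hsum]
  refine hasSum_sum_of_ne_finset_zero fun n hn => ?_
  rw [Fintype.mem_piFinset] at hn
  push Not at hn
  obtain ⟨i, hi⟩ := hn
  simp only [S, Finset.mem_insert, Finset.mem_singleton, not_or] at hi
  exact Finset.prod_eq_zero (Finset.mem_univ i) (tent_add_int_eq_zero hi.1 hi.2)

theorem tentPartition : TentPartition := fun _ _ c => hasSum_tentProd c

/-- `tentProd` is Lipschitz for the sup norm, with constant the number of coordinates. -/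
lemma abs_tentProd_sub_le {ι : Type*} [Fintype ι] (c c' : ι → ℝ) :
    |tentProd c - tentProd c'| ≤ ∑ i, |c i - c' i| := by
  classical
  unfold tentProd
  have key : ∀ s : Finset ι, |∏ i ∈ s, tent (c i) - ∏ i ∈ s, tent (c' i)| ≤
      ∑ i ∈ s, |c i - c' i| := by
    intro s
    induction s using Finset.induction_on with
    | empty => simp
    | insert a s ha ih =>
      rw [Finset.prod_insert ha, Finset.prod_insert ha, Finset.sum_insert ha]
      have hP : |∏ i ∈ s, tent (c i)| ≤ 1 := by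
        rw [abs_of_nonneg (Finset.prod_nonneg fun i _ => tent_nonneg _)]
        exact Finset.prod_le_one (fun i _ => tent_nonneg _) fun i _ => tent_le_one _
      have hT : |tent (c' a)| ≤ 1 := by
        rw [abs_of_nonneg (tent_nonneg _)]; exact tent_le_one _
      have e : tent (c a) * ∏ i ∈ s, tent (c i) - tent (c' a) * ∏ i ∈ s, tent (c' i) =
          (tent (c a) - tent (c' a)) * ∏ i ∈ s, tent (c i) +
            tent (c' a) * (∏ i ∈ s, tent (c i) - ∏ i ∈ s, tent (c' i)) := by ring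
      rw [e]
      refine (abs_add_le _ _).trans (add_le_add ?_ ?_)
      · rw [abs_mul]
        calc |tent (c a) - tent (c' a)| * |∏ i ∈ s, tent (c i)|
            ≤ |tent (c a) - tent (c' a)| * 1 :=
              mul_le_mul_of_nonneg_left hP (abs_nonneg _)
          _ ≤ |c a - c' a| := by rw [mul_one]; exact abs_tent_sub_le _ _
      · rw [abs_mul]
        calc |tent (c' a)| * |∏ i ∈ s, tent (c i) - ∏ i ∈ s, tent (c' i)|
            ≤ 1 * |∏ i ∈ s, tent (c i) - ∏ i ∈ s, tent (c' i)| :=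
              mul_le_mul_of_nonneg_right hT (abs_nonneg _)
          _ ≤ ∑ i ∈ s, |c i - c' i| := by rw [one_mul]; exact ih
  exact key Finset.univ

end Fermat.Agent.S14
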